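import Fermat.Agent.S35.G.SpecLevel
import Fermat.Agent.A2.Alg.H34.Basic
import Fermat.Agent.A2.T1.H669.T1

/-!
# S35, piece (G') — the assembly (architect helper450), sorry-free

* `levelFrob_of_parts` : `ALG-FROB + MODEL + STABLE + NODE-RAT + TORIC + FROB-RES + COORD`
                          `⟹ LevelFrobAt A E M q m` (levels with the auxiliary prime).
* `newPartFrobExplicit_of_parts`, `newPartFrobStatement_of_parts` : the leaves `DEG`, `T0F`,
  `T1F`, `D2F`, `IFs` and the level statement give (G').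
-/

set_option autoImplicit false
set_option linter.style.haveILetI false
set_option linter.unusedSectionVars false
set_option synthInstance.maxHeartbeats 400000
set_option maxHeartbeats 1600000

noncomputable section

namespace Fermat.Agent.S35.G

open ModularCurve AlgebraicCurve

/-! ## Small lemmas -/

theorem actE_mul_apply (E : IntermediateField ℚ Qb) (N : ℕ) (t₁ t₂ : E ≃ₐ[ℚ] E)
    (f : A2.Mod.FE E N) : actE E N (t₁ * t₂) f = actE E N t₁ (actE E N t₂ f) := by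
  have h := congrArg SemilinearAut.toRingAut
    (map_mul (arithmeticGalois (L := E) (modularFunctionFieldFull N)) t₁ t₂)
  exact congrArg (fun φ : RingAut (A2.Mod.FE E N) => φ f) h

theorem frobSub_ne_zero {F : Type*} [Field F] (φ : F ≃+* F) (Q : ℕ) {f : F} (hf : f ≠ 0) :
    frobSub φ Q f ≠ 0 :=
  mul_ne_zero ((map_ne_zero φ).2 hf) (inv_ne_zero (pow_ne_zero Q hf))

theorem divisibleDiv_frobSub_one {E F : Type*} [Field E] [Field F] [Algebra E F]
    (φ : F ≃+* F) (φE : E ≃+* E)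
    (hφE : ∀ e : E, φ (algebraMap E F e) = algebraMap E F (φE e)) (m : ℕ) (f : F)
    (h : A2.DivisibleDiv E m f) : A2.DivisibleDiv E m (frobSub φ 1 f) := by
  unfold frobSub
  rw [pow_one]
  exact A2.Alg.H34.divisibleDiv_mul_inv m _ _ (A2.Alg.H34.divisibleDiv_tau φ φE hφE m f h) h

theorem auxM_ne_zero {M : ℕ} (q : ℕ) (hM : M ≠ 0) : auxM M q ≠ 0 := by
  unfold auxM
  split_ifs
  · exact Nat.lcm_ne_zero hM (by norm_num)
  · exact Nat.lcm_ne_zero hM (by norm_num)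
  · exact hM

theorem not_dvd_lcm_prime {M q a : ℕ} (hq : q.Prime) (ha : a.Prime) (hqa : q ≠ a)
    (hqM : ¬ q ∣ M) : ¬ q ∣ Nat.lcm M a := by
  intro h
  have h1 : q ∣ M * a := h.trans (Nat.lcm_dvd_mul M a)
  rcases (Nat.Prime.dvd_mul hq).1 h1 with h2 | h2
  · exact hqM h2
  · exact hqa ((Nat.prime_dvd_prime_iff_eq hq ha).1 h2)

theorem not_dvd_auxM {M q : ℕ} (hq : q.Prime) (hqM : ¬ q ∣ M) : ¬ q ∣ auxM M q := by
  unfold auxM
  split_ifs with h3 h2
  · exact not_dvd_lcm_prime hq Nat.prime_two (by omega) hqM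
  · exact not_dvd_lcm_prime hq Nat.prime_three (by omega) hqM
  · exact hqM

theorem hasAux_auxM (M q : ℕ) : HasAux (auxM M q) q := by
  refine ⟨fun h => ?_, fun h => ?_⟩
  · unfold auxM
    rw [if_pos h]
    exact Nat.dvd_lcm_right M 2
  · unfold auxM
    rw [if_neg (by omega), if_pos h]
    exact Nat.dvd_lcm_right M 3

/-! ## The level statement from ALG-FROB and the modular inputs -/

theorem levelFrob_of_parts (A : ValuationSubring Qb) (E : IntermediateField ℚ Qb)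
    (M q m : ℕ) [NeZero M] [NeZero q]
    (hq : q.Prime) (hqM : ¬ q ∣ M) (haux : HasAux M q) (hm : 0 < m) (hqm : ¬ q ∣ m)
    (hALG : AlgFrobStatement)
    (hMODEL : ∀ w, ModelStatement A E M q w)
    (hSTAB : StableStatement A E)
    (hNODE : ∀ w, NodeRatStatement A E M q w)
    (hTORIC : ∀ w, ToricStatement A E M q m w)
    (hRES : FrobResStatement A E q)
    (hCOORD : CoordStatement E M q) :
    LevelFrobAt A E M q m := by
  intro hA hE s hs hsF y hy hdiv hNα hNβ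
  haveI : IsDiscreteValuationRing ↥(A2.Mod.RE A E) := hE.dvr
  haveI : HenselianLocalRing ↥(A2.Mod.RE A E) := hE.henselian
  haveI : IsAlgClosed (IsLocalRing.ResidueField ↥(A2.Mod.RE A E)) := hE.algClosed
  obtain ⟨w, hw⟩ := IsDiscreteValuationRing.exists_irreducible ↥(A2.Mod.RE A E)
  have hS : A2.Mod.Setting A E M q w :=
    { q_prime := hq
      q_not_dvd := hqM
      M_ne_zero := NeZero.ne M
      lies_over := hA
      dvr := hE.dvr
      unif := hw }
  obtain ⟨V, W, VM, hV, hW, hVM, hg1, hg2, hDeg, sf, si, cf, ci, hcf, hci⟩ :=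
    hMODEL w hS hE haux
  obtain ⟨hx, hfr, hconst⟩ := hDeg hq hqM
  have hpos : 0 < Module.finrank
      (IntermediateField.adjoin E ({A2.Mod.xE E M q} : Set (A2.Mod.FE E (M * q))))
      (A2.Mod.FE E (M * q)) := by
    rw [hfr]
    have h1 := A2.Mod.dedekindPsi_pos_of_ne_zero M (NeZero.ne M)
    positivity
  have hfin : FiniteDimensional
      (IntermediateField.adjoin E ({A2.Mod.xE E M q} : Set (A2.Mod.FE E (M * q))))
      (A2.Mod.FE E (M * q)) := Module.finite_of_finrank_pos hpos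
  obtain ⟨ψR, hψR, hQ⟩ := hRES hA hq s hs hsF
  have hsD : s ∈ A.decompositionSubgroup ℚ := hsF.mem_decompositionSubgroup
  have hN0 : M * q ≠ 0 := Nat.mul_ne_zero (NeZero.ne M) (NeZero.ne q)
  obtain ⟨hcomm, hσV⟩ := hSTAB (M * q) hN0 hE.dvr V W hV hW s hs hsD
  -- `ψ = σ ∘ σ`
  have hψσ : ∀ f : A2.Mod.FE E (M * q), psiE E (M * q) s hs f =
      actE E (M * q) (A2.Mod.resE E s hs) (actE E (M * q) (A2.Mod.resE E s hs) f) :=
    fun f => actE_mul_apply E (M * q) _ _ f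
  have hψV : ∀ f ∈ V, psiE E (M * q) s hs f ∈ V := fun f hf => by
    rw [hψσ]
    exact hσV _ (hσV _ hf)
  have hψV₀ : ∀ f ∈ V.comap (W : A2.Mod.FE E (M * q) →+* A2.Mod.FE E (M * q)),
      psiE E (M * q) s hs f ∈ V.comap (W : A2.Mod.FE E (M * q) →+* A2.Mod.FE E (M * q)) :=
    fun f hf => by
      show W (psiE E (M * q) s hs f) ∈ V
      rw [hψσ, ← hcomm, ← hcomm]
      exact hσV _ (hσV _ hf)
  -- semilinearity
  have hψE : ∀ e : E, psiE E (M * q) s hs (algebraMap E (A2.Mod.FE E (M * q)) e) =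
      algebraMap E (A2.Mod.FE E (M * q))
        ((A2.Mod.resE E s hs * A2.Mod.resE E s hs).toRingEquiv e) :=
    fun e => arithmeticRingAut_algebraMap (modularFunctionFieldFull (M * q)) _ e
  have hψRE : ∀ r : ↥(A2.Mod.RE A E),
      (A2.Mod.resE E s hs * A2.Mod.resE E s hs).toRingEquiv (algebraMap ↥(A2.Mod.RE A E) E r) =
        algebraMap ↥(A2.Mod.RE A E) E (ψR r) := fun r => hψR r
  -- the function `(ψ - 1)² y`
  set h₁ := frobSub (psiE E (M * q) s hs) 1 y with hh₁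
  set h₂ := frobSub (psiE E (M * q) s hs) 1 h₁ with hh₂
  have hh₁0 : h₁ ≠ 0 := frobSub_ne_zero _ 1 hy
  have hh₂0 : h₂ ≠ 0 := frobSub_ne_zero _ 1 hh₁0
  have hd₁ : A2.DivisibleDiv E m h₁ := divisibleDiv_frobSub_one _ _ hψE m y hdiv
  have hd₂ : A2.DivisibleDiv E m h₂ := divisibleDiv_frobSub_one _ _ hψE m h₁ hd₁
  obtain ⟨ht₁, ht₂⟩ := hTORIC w hS hE hm hqm V W hV hW s hs hsF y hy hNα hNβ
  have hnf := hNODE w hS hE VM V W hVM hV hW _ _ (Or.inl ⟨rfl, rfl⟩) hg1 cf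
    hcf.cut₁ hcf.cut₂ s hs hsF
  have hni := hNODE w hS hE VM V W hVM hV hW _ _ (Or.inr ⟨rfl, rfl⟩) hg2 ci
    hci.cut₁ hci.cut₂ s hs hsF
  obtain ⟨z, hz, hzz⟩ := hALG (R := ↥(A2.Mod.RE A E)) (E := E) (F := ↥(A2.Mod.FE E (M * q)))
    w hw q m (q ^ 2) hq (A2.T1.H669.natCast_mem_maximalIdeal_RE E hA) hm hqm
    (A2.Mod.xE E M q) hx hfin hconst
    (A2.Mod.chartAlg A E (M * q) (A2.Mod.xE E M q))
    (A2.Mod.chartAlg A E (M * q) (A2.Mod.xE E M q)⁻¹)
    (fun _ => Iff.rfl) (fun _ => Iff.rfl) cf ci sf si V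
    (V.comap (W : A2.Mod.FE E (M * q) →+* A2.Mod.FE E (M * q))) hcf hci
    (psiE E (M * q) s hs) (A2.Mod.resE E s hs * A2.Mod.resE E s hs).toRingEquiv ψR
    hψE hψRE (hCOORD _) hQ hψV hψV₀ hnf hni h₂ hh₂0 hd₂ ht₁ ht₂
  refine ⟨z, hz, ?_⟩
  show frobSub (psiE E (M * q) s hs) (q ^ 2) h₂ = z ^ m
  unfold frobSub
  rw [hzz, mul_assoc, mul_inv_cancel₀ (pow_ne_zero _ hh₂0), mul_one]

/-! ## The top assembly -/

/-- **(G'), explicit form, from the leaves.** -/
theorem newPartFrobExplicit_of_parts (hDEG : DegStatement) (hT0 : T0FStatement)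
    (hT1 : T1FStatement) (hD2 : D2FStatement) (hIF : IFsStatement)
    (hLEV : ∀ (M q m : ℕ) [NeZero M] [NeZero q], q.Prime → ¬ q ∣ M → HasAux M q → 0 < m →
      ¬ q ∣ m → ∀ (A : ValuationSubring Qb) (E : IntermediateField ℚ Qb),
        LevelFrobAt A E M q m) :
    NewPartFrobExplicit := by
  intro M q m _ _ hq hqM hm hqm
  haveI : NeZero (auxM M q) := ⟨auxM_ne_zero q (NeZero.ne M)⟩
  have hqM' : ¬ q ∣ auxM M q := not_dvd_auxM hq hqM
  apply hD2 M q m hq hqM hm hqm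
  obtain ⟨hα, hβ, -, -⟩ := hDEG (auxM M q) q hq hqM'
  apply hT0 (auxM M q) q m hq hqM' hm hqm hα hβ
  apply hT1 (auxM M q) q m hq hqM' hm hqm hIF
  intro A E
  exact hLEV (auxM M q) q m hq hqM' (hasAux_auxM M q) hm hqm A E

/-- **(G'), bundled form, from the leaves.** -/
theorem newPartFrobStatement_of_explicit (hDEG : DegStatement) (h : NewPartFrobExplicit) :
    NewPartFrobStatement := by
  intro M q p _ _ hq hqM hp hpq
  obtain ⟨-, -, hA, hB⟩ := hDEG M q hq hqM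
  refine ⟨degA M q, degB M q, ?_, ?_, ?_⟩
  · intro ℓ hℓ x
    exact hA ℓ (fun hd => hℓ (Dvd.dvd.mul_right hd p)) x
  · intro ℓ hℓ x
    exact hB ℓ (fun hd => hℓ (Dvd.dvd.mul_right hd p)) x
  · intro A hA' s hs x hx ha hb
    obtain ⟨n, hn⟩ := hx
    have hqm : ¬ q ∣ p ^ n := fun hd =>
      hpq ((Nat.prime_dvd_prime_iff_eq hq hp).1 (hq.dvd_of_dvd_pow hd)).symm
    exact h M q (p ^ n) hq hqM (pow_pos hp.pos n) hqm A hA' s hs x hn ha hb

end Fermat.Agent.S35.G

end
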